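/-
S56 (Taylor-Wiles primes) : CORE DEFINITIONS (chief: helper6).  Blueprint: reports #1396, #1397.

* `Ad0 r`       : trace zero `2 × 2` matrices with the conjugation action of `GQ` through
                  a matrix representation `r : GQ →* M2 k`   (the module `M = ad⁰ ρ̄`)
* `Nd r p`      : `HomMod (Ad0 r) (Mu p)`                      (the module `N = ad⁰ ρ̄ (1)`)
* `Coc 𝓝 A`     : smooth `1`-cocycles written as functions `G → A`, their classes in `Hsm 𝓝 A 1`
Only definitions and their basic API.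
-/
import Fermat.Agent.S55.Formal.Contract
import Fermat.Agent.S55.Formal.Efface1
import Fermat.Agent.S55.FB.CupRes
import Fermat.Agent.S53.MatrixRep
import Fermat.Prelude.Def_GaloisRep_StrictOrdinary
import Fermat.Prelude.Def_GaloisRep_Flat

set_option autoImplicit false

namespace Fermat.Agent.S56

open Fermat.Agent.S55
open Fermat.Agent.S53 (M2 MatCont toAdic)

/-! ### smooth `1`-cocycles as functions on the group -/

section Coc

variable {G : Type} [Group G] (𝓝 : LevelSys G) (A : Type) [AddCommGroup A] [DistribMulAction G A]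

/-- A smooth `1`-cocycle, as a function `G → A`. -/
structure Coc where
  /-- the underlying function -/
  toFun : G → A
  map_mul' : ∀ g h, toFun (g * h) = toFun g + g • toFun h
  level' : ∃ N ∈ 𝓝.carrier, ∀ g, ∀ n ∈ N, toFun (g * n) = toFun g

variable {𝓝 A}

namespace Coc

instance : CoeFun (Coc 𝓝 A) (fun _ => G → A) := ⟨Coc.toFun⟩

theorem map_mul (c : Coc 𝓝 A) (g h : G) : c (g * h) = c g + g • c h := c.map_mul' g h

theorem level (c : Coc 𝓝 A) : ∃ N ∈ 𝓝.carrier, ∀ g, ∀ n ∈ N, c (g * n) = c g := c.level'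

theorem map_one (c : Coc 𝓝 A) : c 1 = 0 := by
  have h := c.map_mul 1 1
  rw [one_smul, mul_one] at h
  exact (add_eq_left.1 h.symm)

@[ext] theorem ext {c c' : Coc 𝓝 A} (h : ∀ g, c g = c' g) : c = c' := by
  cases c; cases c'; congr; funext g; exact h g

/-- The cochain `(Fin 1 → G) → A` attached to a cocycle. -/
def cochain (c : Coc 𝓝 A) : (Fin 1 → G) → A := fun g => c (g 0)

theorem cochain_mem_Zsm (c : Coc 𝓝 A) : c.cochain ∈ Zsm 𝓝 A 1 := by
  refine ⟨?_, ?_⟩
  · obtain ⟨N, hN, h⟩ := c.level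
    refine ⟨N, hN, fun g k hgk => ?_⟩
    have h1 : k 0 = g 0 * ((g 0)⁻¹ * k 0) := by group
    change c (g 0) = c (k 0)
    rw [h1, h _ _ (hgk 0)]
  · change dd A 1 c.cochain = 0
    funext g
    rw [Formal.dd_one_apply]
    change g 0 • c (g 1) - c (g 0 * g 1) + c (g 0) = 0
    rw [c.map_mul]
    abel

/-- The smooth cocycle of S55 attached to `c`. -/
def toZsm (c : Coc 𝓝 A) : Zsm 𝓝 A 1 := ⟨c.cochain, c.cochain_mem_Zsm⟩

/-- The cohomology class of `c`. -/
def cls (c : Coc 𝓝 A) : Hsm 𝓝 A 1 := Hsm.mk 𝓝 A 1 c.toZsm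

/-- The cocycle attached to an element of `Zsm`. -/
def ofZsm (z : Zsm 𝓝 A 1) : Coc 𝓝 A where
  toFun g := (z : (Fin 1 → G) → A) (fun _ => g)
  map_mul' g h := Formal.cocycle_one z.2 g h
  level' := by
    obtain ⟨N, hN, h⟩ := z.2.1
    refine ⟨N, hN, fun g n hn => (h _ _ fun _ => ?_).symm⟩
    simpa using hn

theorem toZsm_ofZsm (z : Zsm 𝓝 A 1) : (ofZsm z).toZsm = z := by
  apply Subtype.ext
  funext g
  change (z : (Fin 1 → G) → A) (fun _ => g 0) = (z : (Fin 1 → G) → A) g
  have h : (fun _ : Fin 1 => g 0) = g := by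
    funext i
    fin_cases i
    rfl
  rw [h]

theorem exists_cls_eq (x : Hsm 𝓝 A 1) : ∃ c : Coc 𝓝 A, c.cls = x := by
  induction x using Hsm.induction_on with
  | h z => exact ⟨ofZsm z, by rw [cls, toZsm_ofZsm]⟩

theorem cls_eq_zero_iff (c : Coc 𝓝 A) : c.cls = 0 ↔ ∃ a : A, ∀ g, c g = g • a - a := by
  rw [cls, Hsm.mk_eq_zero_iff]
  constructor
  · rintro ⟨f, -, hf⟩
    refine ⟨f default, fun g => ?_⟩
    have := congrFun hf (fun _ => g)
    rw [dd_zero_apply] at this
    exact this.symm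
  · rintro ⟨a, ha⟩
    refine ⟨fun _ => a, mem_Csm_zero _, ?_⟩
    funext g
    rw [dd_zero_apply]
    exact (ha (g 0)).symm

/-- Sum of two cocycles. -/
def add (c c' : Coc 𝓝 A) : Coc 𝓝 A where
  toFun g := c g + c' g
  map_mul' g h := by rw [c.map_mul, c'.map_mul, smul_add]; abel
  level' := by
    obtain ⟨N, hN, h⟩ := c.level
    obtain ⟨N', hN', h'⟩ := c'.level
    obtain ⟨N'', hN'', hle⟩ := 𝓝.directed N hN N' hN'
    exact ⟨N'', hN'', fun g n hn => by rw [h g n (hle hn).1, h' g n (hle hn).2]⟩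

/-- Opposite of a cocycle. -/
def neg (c : Coc 𝓝 A) : Coc 𝓝 A where
  toFun g := - c g
  map_mul' g h := by rw [c.map_mul, smul_neg]; abel
  level' := by
    obtain ⟨N, hN, h⟩ := c.level
    exact ⟨N, hN, fun g n hn => by rw [h g n hn]⟩

theorem cls_add (c c' : Coc 𝓝 A) : (c.add c').cls = c.cls + c'.cls := by
  rw [cls, cls, cls, ← map_add]
  rfl

theorem cls_neg (c : Coc 𝓝 A) : c.neg.cls = - c.cls := by
  rw [cls, cls, ← map_neg]
  rfl

theorem cls_eq_cls_iff (c c' : Coc 𝓝 A) :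
    c.cls = c'.cls ↔ ∃ a : A, ∀ g, c g - c' g = g • a - a := by
  rw [← sub_eq_zero, sub_eq_add_neg, ← cls_neg, ← cls_add, cls_eq_zero_iff]
  refine exists_congr fun a => forall_congr' fun g => ?_
  change c g + - c' g = _ ↔ _
  rw [← sub_eq_add_neg]

end Coc

end Coc

/-- Restriction of a global cocycle to the local Galois group at `q`. -/
noncomputable def Coc.loc {S : Finset Nat.Primes} {A : Type} [AddCommGroup A] [DistribMulAction GQ A]
    (c : Coc (lvlS S) A) (q : Nat.Primes) : Coc (lvlLoc q) (ResMod (ιv q) A) where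
  toFun h := ResMod.toRes (ιv q) (c (ιv q h))
  map_mul' g h := by
    rw [_root_.map_mul, c.map_mul, _root_.map_add, ResMod.smul_def]
  level' := by
    obtain ⟨N, hN, h⟩ := c.level
    obtain ⟨N', hN', hle⟩ := lvlS_comap_le_lvlLoc S q _ ⟨N, hN, rfl⟩
    refine ⟨N', hN', fun g n hn => ?_⟩
    rw [_root_.map_mul, h _ _ (hle hn)]

theorem Coc.locS_cls {S : Finset Nat.Primes} {A : Type} [AddCommGroup A] [DistribMulAction GQ A]
    (c : Coc (lvlS S) A) (q : Nat.Primes) : locS S A q 1 c.cls = (c.loc q).cls := rfl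

/-! ### the modules `M = ad⁰` and `N = ad⁰(1)` -/

section Ad0

variable {k : Type} [Field k]

/-- The trace zero matrices, with the conjugation action through `r`. -/
def Ad0 (_r : GQ →* M2 k) : Type := ↥(Matrix.traceAddMonoidHom (Fin 2) k).ker

variable (r : GQ →* M2 k)

instance : AddCommGroup (Ad0 r) :=
  inferInstanceAs (AddCommGroup ↥(Matrix.traceAddMonoidHom (Fin 2) k).ker)

namespace Ad0

variable {r}

/-- The underlying matrix. -/
def mat (m : Ad0 r) : M2 k := m.1

theorem trace_mat (m : Ad0 r) : m.mat.trace = 0 := m.2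

/-- Constructor. -/
def mk (m : M2 k) (h : m.trace = 0) : Ad0 r := ⟨m, h⟩

@[simp] theorem mat_mk (m : M2 k) (h : m.trace = 0) : (mk m h : Ad0 r).mat = m := rfl

@[ext] theorem ext {m m' : Ad0 r} (h : m.mat = m'.mat) : m = m' := Subtype.ext h

@[simp] theorem mat_add (m m' : Ad0 r) : (m + m').mat = m.mat + m'.mat := rfl
@[simp] theorem mat_zero : (0 : Ad0 r).mat = 0 := rfl
@[simp] theorem mat_neg (m : Ad0 r) : (-m).mat = - m.mat := rfl
@[simp] theorem mat_sub (m m' : Ad0 r) : (m - m').mat = m.mat - m'.mat := rfl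

theorem inv_mul_self (g : GQ) : r g⁻¹ * r g = 1 := by rw [← map_mul, inv_mul_cancel, map_one]
theorem mul_inv_self (g : GQ) : r g * r g⁻¹ = 1 := by rw [← map_mul, mul_inv_cancel, map_one]

theorem trace_conj (g : GQ) (m : M2 k) : (r g * m * r g⁻¹).trace = m.trace := by
  rw [Matrix.trace_mul_comm, ← mul_assoc, inv_mul_self, one_mul]

noncomputable instance : DistribMulAction GQ (Ad0 r) where
  smul g m := mk (r g * m.mat * r g⁻¹) (by rw [trace_conj, trace_mat])
  one_smul m := by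
    apply ext
    change r 1 * m.mat * r 1⁻¹ = m.mat
    simp
  mul_smul g h m := by
    apply ext
    change r (g * h) * m.mat * r (g * h)⁻¹ = r g * (r h * m.mat * r h⁻¹) * r g⁻¹
    rw [mul_inv_rev, map_mul, map_mul]
    simp only [mul_assoc]
  smul_zero g := by
    apply ext
    change r g * (0 : M2 k) * r g⁻¹ = 0
    simp
  smul_add g m m' := by
    apply ext
    change r g * (m.mat + m'.mat) * r g⁻¹ = r g * m.mat * r g⁻¹ + r g * m'.mat * r g⁻¹
    rw [mul_add, add_mul]

@[simp] theorem mat_smul (g : GQ) (m : Ad0 r) : (g • m).mat = r g * m.mat * r g⁻¹ := rfl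

instance [Finite k] : Finite (Ad0 r) :=
  inferInstanceAs (Finite ↥(Matrix.traceAddMonoidHom (Fin 2) k).ker)

end Ad0

/-- `N = ad⁰(1) = Hom(ad⁰, μ_p)`. -/
abbrev Nd (p : ℕ) : Type := HomMod (Ad0 r) (Mu p)

/-- The evaluation pairing `M × N → μ_p`. -/
noncomputable def evPair (p : ℕ) : FB.GPair GQ (Ad0 r) (Nd r p) (Mu p) := FB.GPair.ev GQ (Ad0 r) (Mu p)

end Ad0

end Fermat.Agent.S56
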