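/-
S56 (Taylor-Wiles primes) : THE INTERFACE between the blocks (chief: helper6).
Blueprint: reports #1396, #1397.  Only definitions: every block proves ONE of the named `Prop`s
below; `S56/Top/Glue` derives `ArithStatement` from them and from the export
`Count.card_Sel_extend_le` of block COUNT; DICT derives the frozen statement from `ArithStatement`.

Notation: `k = ResidueField 𝒪`, `s : Gal →* M2 k` a matrix form of `ρ̄`, `M = Ad0 s`,
`N = Nd s p = HomMod M (Mu p)`.  Cardinalities only.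
-/
import Fermat.Agent.S56.Defs
import Fermat.Agent.S56.Dict.Defs
import Fermat.Agent.S55.Arith.Smooth

set_option autoImplicit false

namespace Fermat.Agent.S56

open Fermat.Agent.S55 IsLocalRing Polynomial
open Fermat.Agent.S53 (M2 MatCont toAdic Gal)
open Fermat.Agent.S53 (Dk)

/-! ### block EC : the global Euler characteristic (inequality) -/

/-- **EC**.  `#H²_S(N) · #N^{c = -1} ≤ #H¹_S(N)`, for one involution `c` acting by `-1` on `μ_p`
(complex conjugation). -/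
def ECStatement (p : ℕ) : Prop :=
  ∃ cc : GQ, cc * cc = 1 ∧ (∀ z : Mu p, cc • z = -z) ∧
    ∀ (S : Finset Nat.Primes), (∃ v ∈ S, (v : ℕ) = p) →
    ∀ (N : Type) [AddCommGroup N] [DistribMulAction GQ N], IsCoef S p N →
      Finite (Hsm (lvlS S) N 1) ∧ Finite (Hsm (lvlS S) N 2) ∧
      Nat.card (Hsm (lvlS S) N 2) * Nat.card {n : N // cc • n = -n} ≤ Nat.card (Hsm (lvlS S) N 1)

/-! ### the residual representation -/

section Res

variable {k : Type} [Field k]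

/-- `s` is unramified at `q`. -/
def UnrAt (s : Gal →* M2 k) (q : ℕ) : Prop :=
  ∀ P : ValuationSubring (AlgebraicClosure ℚ), P.LiesOverPrime q →
    ∀ σ ∈ P.inertiaSubgroupIn ℚ, s σ = 1

/-- Every Frobenius at `q` has two distinct eigenvalues in `k`. -/
def FrobDistinct (s : Gal →* M2 k) (q : ℕ) : Prop :=
  ∀ P : ValuationSubring (AlgebraicClosure ℚ), P.LiesOverPrime q →
    ∀ φ : Gal, P.IsFrobeniusAt φ q →
      ∃ α β : k, α ≠ β ∧ (s φ).charpoly = (X - C α) * (X - C β)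

/-- The hypotheses on the residual representation, in matrix form. -/
structure ResHyp (p : ℕ) (s : Gal →* M2 k) : Prop where
  /-- finite level -/
  fin : ∃ L : IntermediateField ℚ (AlgebraicClosure ℚ), FiniteDimensional ℚ L ∧
    ∀ σ : Gal, (∀ x ∈ L, σ x = x) → s σ = 1
  /-- the determinant is the cyclotomic character mod `p` -/
  det : ∀ (σ : Gal) (a : ℕ), (∀ μ : AlgebraicClosure ℚ, μ ^ p = 1 → σ μ = μ ^ a) →
    (s σ).det = (a : k)
  /-- all characteristic polynomials split -/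
  split : ∀ σ : Gal, ∃ α β : k, (s σ).charpoly = (X - C α) * (X - C β)
  /-- no stable line for `G_ℚ` or a subgroup of index `2` -/
  irr : ∀ G : Subgroup Gal, (G = ⊤ ∨ G.index = 2) → ∀ v : Fin 2 → k, v ≠ 0 →
    ∃ σ ∈ G, ∀ a : k, (s σ).mulVec v ≠ a • v

end Res

/-! ### block SEL : Taylor-Wiles primes -/

/-- **SEL**.  For every nonzero class `b ∈ H¹_S(ad⁰(1))` there are Taylor-Wiles primes `q`
(outside any given finite set) with `loc_q b ≠ 0`. -/
def SelStatement : Prop :=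
  ∀ (k : Type) [Field k] [Finite k] (p : ℕ) [Fact p.Prime] [CharP k p], p ≠ 2 →
    ∀ (s : Gal →* M2 k), ResHyp p s → ∀ (S : Finset Nat.Primes) (b : Hsm (lvlS S) (Nd s p) 1),
    b ≠ 0 → ∀ (n : ℕ) (T : Finset ℕ), ∃ q : Nat.Primes, (q : ℕ) ∉ T ∧ q ∉ S ∧
      p ^ (n + 1) ∣ (q : ℕ) - 1 ∧ UnrAt s q ∧ FrobDistinct s q ∧ locS S (Nd s p) q 1 b ≠ 0

/-! ### the local blocks LOC, ORD, FLAT -/

section Local

variable {𝒪 : Type} [CommRing 𝒪] [IsLocalRing 𝒪]

/-- `r` is the lift `(1 + ε c) s` of `s` to the dual numbers. -/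
def IsLiftOf (s : Gal →* M2 (ResidueField 𝒪)) {𝓝 : LevelSys GQ} (c : Coc 𝓝 (Ad0 s))
    (r : Gal →* M2 (Dk 𝒪)) : Prop :=
  ∀ g, r g = dmat (s g) ((c g).mat * s g)

/-- **Local tangent bound** at `q` for a property `P` of lifts to the dual numbers: there is a
subgroup `L ≤ H¹_q(M)` with `#L ≤ K · #H⁰_q(M)` containing the localisations of all the global
cocycles whose lift has the property `P`. -/
def LocalBound (s : Gal →* M2 (ResidueField 𝒪)) (q : Nat.Primes)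
    (P : GaloisRepAdic (Dk 𝒪) → Prop) (K : ℕ) : Prop :=
  ∃ L : AddSubgroup (Hloc q (Ad0 s) 1), Finite L ∧
    Nat.card L ≤ K * Nat.card (Hloc q (Ad0 s) 0) ∧
    ∀ (S : Finset Nat.Primes) (c : Coc (lvlS S) (Ad0 s)) (r : Gal →* M2 (Dk 𝒪)) (hr : MatCont r),
      IsLiftOf s c r → P (toAdic r hr) → locS S (Ad0 s) q 1 c.cls ∈ L

end Local

/-- **LOC** (U1 + U2): at a prime `q ≠ p` where `ρ̄` is ramified, lifts which are unipotent on
inertia have unramified classes. -/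
def LocMinStatement : Prop :=
  ∀ (𝒪 : Type) [CommRing 𝒪] [IsLocalRing 𝒪] [Finite (ResidueField 𝒪)] (p : ℕ) [Fact p.Prime]
    [CharP (ResidueField 𝒪) p], p ≠ 2 → ∀ (s : Gal →* M2 (ResidueField 𝒪)), ResHyp p s →
    ∀ q : Nat.Primes, (q : ℕ) ≠ p → ¬ UnrAt s q →
      LocalBound s q (fun ρ => ρ.IsUnipotentOnInertiaAt q) 1

/-- **LOC** (U3): at a Taylor-Wiles prime `#H¹_q(M) ≤ |k| · #H⁰_q(M)`. -/
def LocTWStatement : Prop :=
  ∀ (k : Type) [Field k] [Finite k] (p : ℕ) [Fact p.Prime] [CharP k p], p ≠ 2 →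
    ∀ (s : Gal →* M2 k), ResHyp p s → ∀ q : Nat.Primes, p ∣ (q : ℕ) - 1 → UnrAt s q →
    FrobDistinct s q →
      Finite (Hloc q (Ad0 s) 1) ∧
      Nat.card (Hloc q (Ad0 s) 1) ≤ Nat.card k * Nat.card (Hloc q (Ad0 s) 0)

/-- **ORD**: the strict ordinary tangent space at `p`. -/
def OrdStatement : Prop :=
  ∀ (𝒪 : Type) [CommRing 𝒪] [IsLocalRing 𝒪] [Finite (ResidueField 𝒪)] (p : ℕ) [hp : Fact p.Prime]
    [CharP (ResidueField 𝒪) p], p ≠ 2 → ∀ (s : Gal →* M2 (ResidueField 𝒪)), ResHyp p s →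
      LocalBound s ⟨p, hp.out⟩ (fun ρ => ρ.DetIsCyclotomic p ∧ ρ.IsStrictOrdinaryAt p)
        (Nat.card (ResidueField 𝒪))

/-- **FLAT**: the flat tangent space at `p`. -/
def FlatStatement : Prop :=
  ∀ (𝒪 : Type) [CommRing 𝒪] [IsLocalRing 𝒪] [Finite (ResidueField 𝒪)] (p : ℕ) [hp : Fact p.Prime]
    [CharP (ResidueField 𝒪) p], p ≠ 2 → ∀ (s : Gal →* M2 (ResidueField 𝒪)), ResHyp p s →
      LocalBound s ⟨p, hp.out⟩ (fun ρ => ρ.DetIsCyclotomic p ∧ ρ.IsFlatAt p)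
        (Nat.card (ResidueField 𝒪))

/-! ### block BR : from lifts to cocycles -/

/-- **BR**: a lift `(1 + ε c) s` with cyclotomic determinant, unramified outside `S`, comes from a
smooth cocycle with values in `ad⁰`. -/
def BridgeStatement : Prop :=
  ∀ (𝒪 : Type) [CommRing 𝒪] [IsLocalRing 𝒪] [Finite (ResidueField 𝒪)] (p : ℕ) [Fact p.Prime]
    [CharP (ResidueField 𝒪) p] (s : Gal →* M2 (ResidueField 𝒪)) (c : Gal → M2 (ResidueField 𝒪))
    (r : Gal →* M2 (Dk 𝒪)) (hr : MatCont r), (∀ g, r g = dmat (s g) (c g * s g)) →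
    (toAdic r hr).DetIsCyclotomic p → ∀ S : Finset Nat.Primes,
    (∀ q : Nat.Primes, q ∉ S → (toAdic r hr).IsUnramifiedAt q) →
    ∃ c' : Coc (lvlS S) (Ad0 s), ∀ g, (c' g).mat = c g

/-! ### what the arithmetic side delivers to DICT -/

/-- One half of the arithmetic statement, for a family of deformation conditions `𝒟 T`
(`T` = allowed ramification). -/
def ArithHalf {𝒪 : Type} [CommRing 𝒪] [IsLocalRing 𝒪] (p : ℕ)
    (s : Gal →* M2 (ResidueField 𝒪)) (S Smin : Finset ℕ) (𝒟 : Finset ℕ → Cond 𝒪) : Prop :=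
  ∃ r : ℕ, ∀ n : ℕ, ∃ qv : Fin r → ℕ, Function.Injective qv ∧
    (∀ i, (qv i).Prime ∧ qv i ∉ S ∧ p ^ (n + 1) ∣ qv i - 1) ∧
    (∀ i, FrobDistinct s (qv i)) ∧
    TangentBound (𝒟 (Smin ∪ Finset.univ.image qv)) s r

/-- **ARITH**: what `S56/Top` proves and DICT consumes. -/
def ArithStatement : Prop :=
  ∀ (𝒪 : Type) [CommRing 𝒪] [IsLocalRing 𝒪] [Finite (ResidueField 𝒪)] (p : ℕ) [Fact p.Prime]
    [CharP (ResidueField 𝒪) p], p ≠ 2 → ∀ (s : Gal →* M2 (ResidueField 𝒪)), ResHyp p s →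
    ∀ (S Smin : Finset ℕ), p ∈ Smin → Smin ⊆ S → (∀ q ∈ S, q.Prime) →
    (∀ q : ℕ, q.Prime → q ≠ p → (q ∈ Smin ↔ ¬ UnrAt s q)) →
    ArithHalf p s S Smin (condSO 𝒪 p Smin) ∧ ArithHalf p s S Smin (condFl 𝒪 p Smin)

end Fermat.Agent.S56
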